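import Mathlib.LinearAlgebra.FreeModule.PID
import Mathlib.RingTheory.DiscreteValuationRing.Basic
import Mathlib.RingTheory.Ideal.AssociatedPrime.Finiteness
import Mathlib.RingTheory.KrullDimension.LocalRing
import Mathlib.RingTheory.KrullDimension.PID
import Mathlib.RingTheory.KrullDimension.Regular
import Mathlib.RingTheory.MvPowerSeries.Equiv
import Mathlib.RingTheory.MvPowerSeries.NoZeroDivisors
import Mathlib.RingTheory.PowerSeries.Inverse
import Mathlib.RingTheory.Regular.Free
import Mathlib.RingTheory.Regular.IsSMulRegular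
import Mathlib.RingTheory.Regular.RegularSequence

/-!
# Modules of full depth over power series rings over a DVR are free

`DepthGE S n M` says that there is a weakly `M`-regular sequence of length `n` inside the
maximal ideal.  We show that over `S = 𝒪⟦X₁, …, X_r⟧` a finite module is free iff it has
depth at least `r + 1`.
-/

set_option autoImplicit false
set_option linter.style.haveILetI false

namespace Fermat.Agent.ALG

open IsLocalRing RingTheory.Sequence Module

open scoped Pointwise

variable {S : Type*} [CommRing S] [IsLocalRing S]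

/-- There is a weakly regular sequence of length `n` on `M` inside the maximal ideal. -/
def DepthGE (S : Type*) [CommRing S] [IsLocalRing S] (n : ℕ) (M : Type*) [AddCommGroup M]
    [Module S M] : Prop :=
  ∃ rs : List S, rs.length = n ∧ (∀ r ∈ rs, r ∈ maximalIdeal S) ∧ IsWeaklyRegular M rs

lemma depthGE_zero (M : Type*) [AddCommGroup M] [Module S M] : DepthGE S 0 M :=
  ⟨[], rfl, by simp, by simp⟩

lemma depthGE_succ_iff (n : ℕ) (M : Type*) [AddCommGroup M] [Module S M] :
    DepthGE S (n + 1) M ↔
      ∃ x ∈ maximalIdeal S, IsSMulRegular M x ∧ DepthGE S n (QuotSMulTop x M) := by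
  constructor
  · rintro ⟨_ | ⟨x, rs⟩, hl, hm, hreg⟩
    · simp at hl
    · rw [isWeaklyRegular_cons_iff] at hreg
      exact ⟨x, hm x (by simp), hreg.1, rs, by simpa using hl,
        fun r hr => hm r (by simp [hr]), hreg.2⟩
  · rintro ⟨x, hx, hreg, rs, hl, hm, hrs⟩
    refine ⟨x :: rs, by simp [hl], ?_, ?_⟩
    · exact List.forall_mem_cons.2 ⟨hx, hm⟩
    · rw [isWeaklyRegular_cons_iff]
      exact ⟨hreg, hrs⟩

lemma DepthGE.congr {n : ℕ} {M M' : Type*} [AddCommGroup M] [Module S M] [AddCommGroup M']
    [Module S M'] (e : M ≃ₗ[S] M') (h : DepthGE S n M) : DepthGE S n M' := by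
  obtain ⟨rs, hl, hm, hr⟩ := h
  exact ⟨rs, hl, hm, (e.isWeaklyRegular_congr rs).1 hr⟩

/-- A nonzero element killed by the maximal ideal transfers between `M/yM` and `M/xM`. -/
lemma socle_transfer {M : Type*} [AddCommGroup M] [Module S M] {x y : S}
    (hxm : x ∈ maximalIdeal S) (hy : IsSMulRegular M y) (hx : IsSMulRegular M x)
    {u : M} (hu : u ∉ y • (⊤ : Submodule S M))
    (hsoc : ∀ a ∈ maximalIdeal S, a • u ∈ y • (⊤ : Submodule S M)) :
    ∃ v : M, v ∉ x • (⊤ : Submodule S M) ∧
      ∀ a ∈ maximalIdeal S, a • v ∈ x • (⊤ : Submodule S M) := by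
  obtain ⟨v, -, hv⟩ := (Submodule.mem_smul_pointwise_iff_exists _ _ _).1 (hsoc x hxm)
  refine ⟨v, ?_, fun a ha => ?_⟩
  · intro hmem
    obtain ⟨w, -, rfl⟩ := (Submodule.mem_smul_pointwise_iff_exists _ _ _).1 hmem
    have : u = y • w := hx (by
      show x • u = x • (y • w)
      rw [← hv, smul_comm y x w])
    exact hu (this ▸ Submodule.smul_mem_pointwise_smul w y ⊤ trivial)
  · obtain ⟨c, -, hc⟩ := (Submodule.mem_smul_pointwise_iff_exists _ _ _).1 (hsoc a ha)
    have : a • v = x • c := hy (by
      show y • (a • v) = y • (x • c)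
      rw [smul_comm y a v, hv, smul_comm a x u, ← hc, smul_comm x y c])
    exact this ▸ Submodule.smul_mem_pointwise_smul c x ⊤ trivial

/-- Independence of depth from the chosen regular element. -/
theorem DepthGE.change_elem [IsNoetherianRing S] {n : ℕ} :
    ∀ {M : Type} [AddCommGroup M] [Module S M] [Module.Finite S M] {x y : S},
      x ∈ maximalIdeal S → y ∈ maximalIdeal S → IsSMulRegular M x → IsSMulRegular M y →
      DepthGE S n (QuotSMulTop x M) → DepthGE S n (QuotSMulTop y M) := by
  induction n with
  | zero => intro M _ _ _ x y _ _ _ _ _; exact depthGE_zero _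
  | succ n ih =>
    intro M _ _ _ x y hxm hym hx hy hD
    obtain ⟨w, hwm, hw, hwD⟩ := (depthGE_succ_iff _ _).1 hD
    -- find `z` regular on `M`, `M/xM`, `M/yM`
    have hex : ∃ z ∈ maximalIdeal S, IsSMulRegular M z ∧ IsSMulRegular (QuotSMulTop x M) z ∧
        IsSMulRegular (QuotSMulTop y M) z := by
      by_contra! hno
      let A := associatedPrimes S M ∪ associatedPrimes S (QuotSMulTop x M) ∪
        associatedPrimes S (QuotSMulTop y M)
      have hfin : A.Finite := ((associatedPrimes.finite S M).union
        (associatedPrimes.finite S _)).union (associatedPrimes.finite S _)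
      have hsub : (maximalIdeal S : Set S) ⊆ ⋃ p ∈ A, (p : Set S) := by
        intro z hz
        by_cases h1 : IsSMulRegular M z
        · by_cases h2 : IsSMulRegular (QuotSMulTop x M) z
          · have h3 := hno z hz h1 h2
            have : z ∈ ⋃ p ∈ associatedPrimes S (QuotSMulTop y M), (p : Set S) := by
              rw [biUnion_associatedPrimes_eq_compl_regular]; exact h3
            exact Set.biUnion_subset_biUnion_left (Set.subset_union_right) this
          · have : z ∈ ⋃ p ∈ associatedPrimes S (QuotSMulTop x M), (p : Set S) := by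
              rw [biUnion_associatedPrimes_eq_compl_regular]; exact h2
            exact Set.biUnion_subset_biUnion_left
              (Set.subset_union_of_subset_left Set.subset_union_right _) this
        · have : z ∈ ⋃ p ∈ associatedPrimes S M, (p : Set S) := by
            rw [biUnion_associatedPrimes_eq_compl_regular]; exact h1
          exact Set.biUnion_subset_biUnion_left
            (Set.subset_union_of_subset_left Set.subset_union_left _) this
      have hprime : ∀ p ∈ A, p.IsPrime := by
        rintro p ((hp | hp) | hp) <;> exact IsAssociatedPrime.isPrime hp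
      obtain ⟨p, hpA, hle⟩ := (Ideal.subset_union_prime_finite hfin ⊥ ⊥
        fun p hp _ _ => hprime p hp).1 hsub
      have hpm : p = maximalIdeal S :=
        le_antisymm (le_maximalIdeal (hprime p hpA).ne_top) hle
      subst hpm
      rcases hpA with (hp | hp) | hp
      · have : x ∈ ⋃ p ∈ associatedPrimes S M, (p : Set S) := Set.mem_biUnion hp hxm
        rw [biUnion_associatedPrimes_eq_compl_regular] at this
        exact this hx
      · have : w ∈ ⋃ p ∈ associatedPrimes S (QuotSMulTop x M), (p : Set S) :=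
          Set.mem_biUnion hp hwm
        rw [biUnion_associatedPrimes_eq_compl_regular] at this
        exact this hw
      · obtain ⟨hpr, u, hu⟩ := isAssociatedPrime_iff.1 hp
        obtain ⟨u, rfl⟩ := Submodule.Quotient.mk_surjective _ u
        have humem : ∀ a : S, a ∈ maximalIdeal S ↔ a • u ∈ y • (⊤ : Submodule S M) := by
          intro a
          rw [hu, Submodule.mem_colon_singleton, Submodule.mem_bot, ← Submodule.Quotient.mk_smul,
            Submodule.Quotient.mk_eq_zero]
        have hu0 : u ∉ y • (⊤ : Submodule S M) := by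
          intro h
          have := (humem 1).2 (by simpa using h)
          exact (maximalIdeal.isMaximal S).ne_top ((Ideal.eq_top_iff_one _).2 this)
        obtain ⟨v, hv0, hv⟩ := socle_transfer hxm hy hx hu0 fun a ha => (humem a).1 ha
        apply hv0
        rw [← Submodule.Quotient.mk_eq_zero]
        apply hw.right_eq_zero_of_smul
        rw [← Submodule.Quotient.mk_smul, Submodule.Quotient.mk_eq_zero]
        exact hv w hwm
    obtain ⟨z, hzm, hz, hzx, hzy⟩ := hex
    obtain ⟨rs, hl, hrm, hrs⟩ := ih hwm hzm hw hzx hwD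
    have h1 : IsWeaklyRegular M (x :: z :: rs) := by
      simp only [isWeaklyRegular_cons_iff]; exact ⟨hx, hzx, hrs⟩
    have h2 : IsWeaklyRegular M (z :: x :: rs) :=
      isWeaklyRegular_of_perm_of_subset_maximalIdeal h1 (List.Perm.swap z x rs)
        (List.forall_mem_cons.2 ⟨hxm, List.forall_mem_cons.2 ⟨hzm, hrm⟩⟩)
    have h3 : IsWeaklyRegular M [z, y] :=
      isWeaklyRegular_of_perm_of_subset_maximalIdeal
        (rs := [y, z]) (by simp [isWeaklyRegular_cons_iff, hy, hzy]) (List.Perm.swap z y [])
        (List.forall_mem_cons.2 ⟨hym, List.forall_mem_cons.2 ⟨hzm, by simp⟩⟩)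
    simp only [isWeaklyRegular_cons_iff] at h2 h3
    obtain ⟨rs', hl', hrm', hrs'⟩ := ih hxm hym h2.2.1 h3.2.1 ⟨rs, hl, hrm, h2.2.2⟩
    have h4 : IsWeaklyRegular M (z :: y :: rs') := by
      simp only [isWeaklyRegular_cons_iff]; exact ⟨hz, h3.2.1, hrs'⟩
    have h5 : IsWeaklyRegular M (y :: z :: rs') :=
      isWeaklyRegular_of_perm_of_subset_maximalIdeal h4 (List.Perm.swap y z rs')
        (List.forall_mem_cons.2 ⟨hzm, List.forall_mem_cons.2 ⟨hym, hrm'⟩⟩)
    refine ⟨z :: rs', by simp [hl'], List.forall_mem_cons.2 ⟨hzm, hrm'⟩, ?_⟩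
    simp only [isWeaklyRegular_cons_iff] at h5 ⊢
    exact h5.2

/-- The depth is at most the dimension of `S/p` for an associated prime `p`. -/
theorem DepthGE.height_add_le [IsNoetherianRing S] {n : ℕ} :
    ∀ {M : Type} [AddCommGroup M] [Module S M] [Module.Finite S M] {p : Ideal S},
      DepthGE S n M → p ∈ associatedPrimes S M →
      ((p.height + n : ℕ∞) : WithBot ℕ∞) ≤ ringKrullDim S := by
  induction n with
  | zero =>
    intro M _ _ _ p _ hp
    haveI := IsAssociatedPrime.isPrime hp
    simpa using Ideal.height_le_ringKrullDim_of_ne_top (Ideal.IsPrime.ne_top ‹_›)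
  | succ n ih =>
    intro M _ _ _ p hD hp
    obtain ⟨x, hxm, hx, hxD⟩ := (depthGE_succ_iff _ _).1 hD
    haveI := IsAssociatedPrime.isPrime hp
    have hxp : x ∉ p := fun h => by
      have : x ∈ ⋃ q ∈ associatedPrimes S M, (q : Set S) := Set.mem_biUnion hp h
      rw [biUnion_associatedPrimes_eq_compl_regular] at this
      exact this hx
    obtain ⟨-, u, hu⟩ := isAssociatedPrime_iff.1 hp
    have hann : ∀ a : S, a ∈ p ↔ a • u = 0 := by
      intro a; rw [hu, Submodule.mem_colon_singleton, Submodule.mem_bot]
    -- some nonzero element killed by `p` lies outside `xM`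
    have hex : ∃ v : M, v ∉ x • (⊤ : Submodule S M) ∧ ∀ a ∈ p, a • v = 0 := by
      by_contra! hno
      have hall : ∀ (k : ℕ) (v : M), (∀ a ∈ p, a • v = 0) →
          v ∈ (Ideal.span {x} ^ k) • (⊤ : Submodule S M) := by
        intro k
        induction k with
        | zero => intro v _; simp
        | succ k ihk =>
          intro v hv
          have hvx : v ∈ x • (⊤ : Submodule S M) := by
            by_contra h
            obtain ⟨a, ha, hne⟩ := hno v h
            exact hne (hv a ha)
          obtain ⟨v', -, rfl⟩ := (Submodule.mem_smul_pointwise_iff_exists _ _ _).1 hvx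
          have := ihk v' fun a ha => hx.right_eq_zero_of_smul (by
            rw [smul_comm]; exact hv a ha)
          rw [pow_succ', Submodule.mul_smul]
          exact Submodule.smul_mem_smul (Ideal.mem_span_singleton_self x) this
      have hne : Ideal.span {x} ≠ ⊤ := fun h =>
        (maximalIdeal.isMaximal S).ne_top (top_unique
          (h ▸ (Ideal.span_singleton_le_iff_mem _).2 hxm))
      have h0 : u ∈ (⨅ k : ℕ, (Ideal.span {x} ^ k) • (⊤ : Submodule S M)) :=
        Submodule.mem_iInf _ |>.2 fun k => hall k u fun a ha => (hann a).1 ha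
      rw [Ideal.iInf_pow_smul_eq_bot_of_isLocalRing _ hne, Submodule.mem_bot] at h0
      exact (Ideal.IsPrime.ne_top ‹p.IsPrime›) ((Ideal.eq_top_iff_one _).2
        ((hann 1).2 (by simp [h0])))
    obtain ⟨v, hv0, hv⟩ := hex
    have hv0' : (Submodule.Quotient.mk v : QuotSMulTop x M) ≠ 0 := by
      rwa [ne_eq, Submodule.Quotient.mk_eq_zero]
    obtain ⟨q, hq, hvq⟩ := exists_le_isAssociatedPrime_of_isNoetherianRing S _ hv0'
    haveI := IsAssociatedPrime.isPrime hq
    have hpq : p < q := by
      refine lt_of_le_of_ne (fun a ha => hvq ?_) fun h => hxp (h ▸ hvq ?_)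
      · rw [Submodule.mem_colon_singleton, Submodule.mem_bot, ← Submodule.Quotient.mk_smul,
          hv a ha, Submodule.Quotient.mk_zero]
      · rw [Submodule.mem_colon_singleton, Submodule.mem_bot, ← Submodule.Quotient.mk_smul,
          Submodule.Quotient.mk_eq_zero]
        exact Submodule.smul_mem_pointwise_smul v x ⊤ trivial
    refine le_trans (WithBot.coe_le_coe.2 ?_) (ih hxD hq)
    calc p.height + ((n + 1 : ℕ) : ℕ∞) = p.height + 1 + (n : ℕ∞) := by
          push_cast; ring
      _ ≤ q.height + (n : ℕ∞) := by gcongr; exact Ideal.height_add_one_le_of_lt_of_isPrime hpq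

/-- In a domain, maximal depth forces torsion-freeness. -/
theorem DepthGE.isSMulRegular_of_ne_zero [IsNoetherianRing S] [IsDomain S] {n : ℕ}
    (hdim : ringKrullDim S ≤ n) {M : Type} [AddCommGroup M] [Module S M] [Module.Finite S M]
    (hD : DepthGE S n M) {x : S} (hx : x ≠ 0) : IsSMulRegular M x := by
  by_contra h
  have : x ∈ ⋃ p ∈ associatedPrimes S M, (p : Set S) := by
    rw [biUnion_associatedPrimes_eq_compl_regular]; exact h
  obtain ⟨p, hp, hxp⟩ := Set.mem_iUnion₂.1 this
  have hle := (hD.height_add_le hp).trans hdim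
  have hle' : p.height + (n : ℕ∞) ≤ 0 + (n : ℕ∞) := by
    rw [zero_add]; exact_mod_cast hle
  have h0 : p.height = 0 :=
    le_antisymm ((ENat.add_le_add_iff_right (ENat.natCast_ne_top n)).1 hle') zero_le
  rw [Ideal.height_eq_zero_iff_eq_bot] at h0
  subst h0
  exact hx (by simpa using hxp)

/-- `dim ≤ n` and: a finite module has depth `≥ n` iff it is free. -/
def FreeCrit (S : Type) [CommRing S] [IsLocalRing S] (n : ℕ) : Prop :=
  ringKrullDim S ≤ n ∧ ∀ (M : Type) [AddCommGroup M] [Module S M] [Module.Finite S M],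
    DepthGE S n M ↔ Module.Free S M

theorem FreeCrit.of_ringEquiv {S S' : Type} [CommRing S] [IsLocalRing S] [CommRing S']
    [IsLocalRing S'] (e : S ≃+* S') {n : ℕ} (h : FreeCrit S n) : FreeCrit S' n := by
  refine ⟨(ringKrullDim_eq_of_ringEquiv e).symm.trans_le h.1, fun M _ _ _ => ?_⟩
  letI : Module S M := Module.compHom M e.toRingHom
  have hsmul : ∀ (a : S) (m : M), a • m = e a • m := fun _ _ => rfl
  haveI : Module.Finite S M := by
    obtain ⟨s, hs⟩ := (Module.Finite.fg_top : (⊤ : Submodule S' M).FG)
    refine ⟨⟨s, top_unique ?_⟩⟩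
    intro m hmtop
    have hm : m ∈ Submodule.span S' (s : Set M) := hs ▸ trivial
    clear hmtop
    induction hm using Submodule.span_induction with
    | mem x hx => exact Submodule.subset_span hx
    | zero => exact zero_mem _
    | add x y _ _ hx hy => exact add_mem hx hy
    | smul a x _ hx =>
      have := Submodule.smul_mem (Submodule.span S (s : Set M)) (e.symm a) hx
      rwa [hsmul, RingEquiv.apply_symm_apply] at this
  have hmem : ∀ a : S, e a ∈ maximalIdeal S' ↔ a ∈ maximalIdeal S := by
    intro a
    simp only [mem_maximalIdeal, mem_nonunits_iff, MulEquiv.isUnit_map]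
  have hdepth : DepthGE S' n M ↔ DepthGE S n M := by
    have key : ∀ rs : List S, IsWeaklyRegular M rs ↔ IsWeaklyRegular M (rs.map e) := fun rs =>
      (AddEquiv.refl M).isWeaklyRegular_congr <| List.forall₂_map_right_iff.mpr <|
        List.forall₂_same.mpr fun a _ m => hsmul a m
    constructor
    · rintro ⟨rs, hl, hm, hr⟩
      refine ⟨rs.map e.symm, by simp [hl], ?_, ?_⟩
      · simp only [List.mem_map, forall_exists_index, and_imp]
        rintro _ a ha rfl
        rw [← hmem]; simpa using hm a ha
      · rw [key, List.map_map]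
        convert! hr
        simp [Function.comp_def]
    · rintro ⟨rs, hl, hm, hr⟩
      refine ⟨rs.map e, by simp [hl], ?_, (key rs).1 hr⟩
      simp only [List.mem_map, forall_exists_index, and_imp]
      rintro _ a ha rfl
      exact (hmem a).2 (hm a ha)
  have hfree : Module.Free S' M ↔ Module.Free S M := by
    refine ⟨fun _ => ?_, fun _ => ?_⟩
    · exact Module.Free.of_basis ((Module.Free.chooseBasis S' M).mapCoeffs e.symm fun c m => by
        rw [hsmul, RingEquiv.apply_symm_apply])
    · exact Module.Free.of_basis ((Module.Free.chooseBasis S M).mapCoeffs e fun c m =>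
        (hsmul c m).symm)
  rw [hdepth, hfree]
  exact h.2 M

lemma isSMulRegular_of_free {S : Type*} [CommRing S] [IsDomain S] (M : Type*) [AddCommGroup M]
    [Module S M] [Module.Free S M] {x : S} (hx : x ≠ 0) : IsSMulRegular M x := by
  intro a b hab
  apply (Module.Free.chooseBasis S M).repr.injective
  ext i
  have := congrArg (fun m => (Module.Free.chooseBasis S M).repr m i) hab
  simpa [hx] using this

/-- The inductive step. -/
theorem FreeCrit.of_quotient {S : Type} [CommRing S] [IsLocalRing S] [IsNoetherianRing S]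
    [IsDomain S] {x : S} [IsLocalRing (S ⧸ Ideal.span {x})] (hxm : x ∈ maximalIdeal S)
    (hx : x ≠ 0) {n : ℕ} (h : FreeCrit (S ⧸ Ideal.span {x}) n) : FreeCrit S (n + 1) := by
  have hreg : IsSMulRegular S x := fun a b hab => mul_left_cancel₀ hx hab
  have hdim : ringKrullDim S ≤ (n + 1 : ℕ) := by
    rw [← ringKrullDim_quotient_span_singleton_succ_eq_ringKrullDim hreg hxm, Nat.cast_succ]
    gcongr
    exact h.1
  refine ⟨hdim, fun M _ _ _ => ?_⟩
  haveI : Module.Finite (S ⧸ Ideal.span {x}) (QuotSMulTop x M) :=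
    Module.Finite.of_restrictScalars_finite S _ _
  have hmem : ∀ a : S, Ideal.Quotient.mk (Ideal.span {x}) a ∈
      maximalIdeal (S ⧸ Ideal.span {x}) ↔ a ∈ maximalIdeal S := by
    intro a
    haveI : IsLocalHom (Ideal.Quotient.mk (Ideal.span {x})) :=
      .of_surjective _ Ideal.Quotient.mk_surjective
    simp only [mem_maximalIdeal, mem_nonunits_iff, isUnit_map_iff]
  have hdepth : DepthGE (S ⧸ Ideal.span {x}) n (QuotSMulTop x M) ↔
      DepthGE S n (QuotSMulTop x M) := by
    constructor
    · rintro ⟨rs, hl, hm, hr⟩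
      obtain ⟨rs, rfl⟩ : ∃ as : List S, as.map (Ideal.Quotient.mk _) = rs :=
        (List.map_surjective_iff.2 Ideal.Quotient.mk_surjective) rs
      refine ⟨rs, by simpa using hl, fun a ha => (hmem a).1 (hm _ (List.mem_map_of_mem ha)), ?_⟩
      exact (isWeaklyRegular_map_algebraMap_iff (S ⧸ Ideal.span {x}) _ rs).1 hr
    · rintro ⟨rs, hl, hm, hr⟩
      refine ⟨rs.map (Ideal.Quotient.mk _), by simp [hl], ?_,
        (isWeaklyRegular_map_algebraMap_iff (S ⧸ Ideal.span {x}) _ rs).2 hr⟩
      simp only [List.mem_map, forall_exists_index, and_imp]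
      rintro _ a ha rfl
      exact (hmem a).2 (hm a ha)
  haveI : Module.FinitePresentation S M := Module.finitePresentation_of_finite S M
  have hjac : x ∈ (⊥ : Ideal S).jacobson := maximalIdeal_le_jacobson _ hxm
  constructor
  · intro hD
    have hxM := hD.isSMulRegular_of_ne_zero hdim hx
    obtain ⟨y, hym, hy, hyD⟩ := (depthGE_succ_iff _ _).1 hD
    have := hdepth.2 (hyD.change_elem hym hxm hy hxM)
    exact (Module.free_quotSMulTop_iff_free S M hjac hxM).1 ((h.2 _).1 this)
  · intro hfree
    haveI := hfree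
    exact (depthGE_succ_iff _ _).2 ⟨x, hxm, isSMulRegular_of_free M hx,
      hdepth.1 ((h.2 _).2 inferInstance)⟩

theorem freeCrit_dvr (𝒪 : Type) [CommRing 𝒪] [IsDomain 𝒪] [IsDiscreteValuationRing 𝒪] :
    FreeCrit 𝒪 1 := by
  obtain ⟨p, hp⟩ := IsDiscreteValuationRing.exists_irreducible 𝒪
  have hpm : p ∈ maximalIdeal 𝒪 := hp.not_isUnit
  have hdim : ringKrullDim 𝒪 ≤ (1 : ℕ) := by
    exact (IsPrincipalIdealRing.ringKrullDim_eq_one 𝒪
      (IsDiscreteValuationRing.not_isField 𝒪)).le
  refine ⟨hdim, fun M _ _ _ => ⟨fun hD => ?_, fun hfree => ?_⟩⟩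
  · haveI : Module.IsTorsionFree 𝒪 M :=
      ⟨fun r hr => hD.isSMulRegular_of_ne_zero hdim hr.ne_zero⟩
    exact Module.free_of_finite_type_torsion_free'
  · haveI := hfree
    exact (depthGE_succ_iff _ _).2 ⟨p, hpm, isSMulRegular_of_free M hp.ne_zero, depthGE_zero _⟩

/-- Over `𝒪⟦X₁, …, X_r⟧` a finite module is free iff it has depth at least `r + 1`. -/
theorem freeCrit_mvPowerSeries (𝒪 : Type) [CommRing 𝒪] [IsDomain 𝒪]
    [IsDiscreteValuationRing 𝒪] :
    ∀ r : ℕ, FreeCrit (MvPowerSeries (Fin r) 𝒪) (r + 1) := by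
  intro r
  induction r with
  | zero =>
    exact (freeCrit_dvr 𝒪).of_ringEquiv
      (MvPowerSeries.isEmptyEquiv (Fin 0) 𝒪).symm.toRingEquiv
  | succ r ih =>
    let A := MvPowerSeries (Fin r) 𝒪
    haveI : IsNoetherianRing A := inferInstance
    haveI : IsDomain A := NoZeroDivisors.to_isDomain _
    haveI : IsDomain (PowerSeries A) := inferInstance
    have hker : RingHom.ker (PowerSeries.constantCoeff (R := A)) =
        Ideal.span {(PowerSeries.X : PowerSeries A)} := by
      ext f
      rw [RingHom.mem_ker, Ideal.mem_span_singleton, PowerSeries.X_dvd_iff]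
    let e : PowerSeries A ⧸ Ideal.span {(PowerSeries.X : PowerSeries A)} ≃+* A :=
      (Ideal.quotEquivOfEq hker.symm).trans
        (RingHom.quotientKerEquivOfSurjective fun a =>
          ⟨PowerSeries.C a, PowerSeries.constantCoeff_C a⟩)
    haveI : IsLocalRing (PowerSeries A ⧸ Ideal.span {(PowerSeries.X : PowerSeries A)}) :=
      e.symm.isLocalRing
    have hXm : (PowerSeries.X : PowerSeries A) ∈ maximalIdeal (PowerSeries A) := by
      rw [mem_maximalIdeal, mem_nonunits_iff, PowerSeries.isUnit_iff_constantCoeff]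
      simp
    exact (FreeCrit.of_quotient hXm PowerSeries.X_ne_zero (ih.of_ringEquiv e.symm)).of_ringEquiv
      (MvPowerSeries.finSuccEquiv 𝒪 r).symm.toRingEquiv

end Fermat.Agent.ALG
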